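/-
helper95 (P-MW, row 717, block MW-A1-LOGDERIV): integration of a logarithmic derivative.

`φ, ψ` holomorphic on the upper half plane, `ψ ≠ 0`, and `φ / ψ` has at most simple poles, with
residues `k z₀ ∈ ℕ`.  Then `φ / ψ` is the logarithmic derivative of a holomorphic function `F`
whose order at `z₀` is `k z₀`.

Method (that of `Fermat.Agent.H41.HolRoot`, no monodromy theorem).  On a disc whose closure lies
in the half plane `ψ` has finitely many zeros `Z`; the regular part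
`g = φ / ψ - ∑ s ∈ Z, k s / (z - s)` is holomorphic on the disc, so it has a primitive `G`, and
`F = ∏ s ∈ Z, (z - s) ^ k s * exp G` solves the problem on the disc.  Two solutions on a
connected open set are proportional, so the solutions on an exhaustion by discs, normalised at a
base point, glue.
-/
import Mathlib
import Fermat.Agent.H41.HolRoot
import Fermat.Agent.H84.MWDiv.Interfaces

set_option autoImplicit false

open Complex Set Metric Filter Topology

namespace Fermat.Agent.H95.MWDiv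

/-- The local condition: `φ / ψ` has at `z₀` at most a simple pole, with residue `k`. -/
def LdLocal (φ ψ : ℂ → ℂ) (k : ℕ) (z₀ : ℂ) : Prop :=
  ∃ u : ℂ → ℂ, AnalyticAt ℂ u z₀ ∧
    ∀ᶠ z in 𝓝 z₀, φ z * (z - z₀) = ψ z * ((k : ℂ) + (z - z₀) * u z)

/-- The polar part `∑ s ∈ Z, k s / (z - s)`. -/
noncomputable def ldPolar (Z : Finset ℂ) (k : ℂ → ℕ) (z : ℂ) : ℂ :=
  ∑ s ∈ Z, (k s : ℂ) / (z - s)

/-- The product `∏ s ∈ Z, (z - s) ^ k s`. -/
noncomputable def ldProd (Z : Finset ℂ) (k : ℂ → ℕ) (z : ℂ) : ℂ :=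
  ∏ s ∈ Z, (z - s) ^ k s

theorem ldProd_ne_zero {Z : Finset ℂ} {k : ℂ → ℕ} {z : ℂ} (hz : z ∉ Z) : ldProd Z k z ≠ 0 :=
  Finset.prod_ne_zero_iff.2 fun _ hs => pow_ne_zero _ (sub_ne_zero.2 fun h => hz (h ▸ hs))

theorem differentiable_ldProd (Z : Finset ℂ) (k : ℂ → ℕ) : Differentiable ℂ (ldProd Z k) := by
  unfold ldProd
  fun_prop

theorem differentiableAt_ldPolar {Z : Finset ℂ} {k : ℂ → ℕ} {z : ℂ} (hz : z ∉ Z) :
    DifferentiableAt ℂ (ldPolar Z k) z := by
  unfold ldPolar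
  refine DifferentiableAt.fun_sum fun s hs => ?_
  have hne : z - s ≠ 0 := sub_ne_zero.2 fun h => hz (h ▸ hs)
  exact (differentiableAt_const _).div (by fun_prop) hne

theorem logDeriv_ldProd {Z : Finset ℂ} {k : ℂ → ℕ} {z : ℂ} (hz : z ∉ Z) :
    logDeriv (ldProd Z k) z = ldPolar Z k z := by
  unfold ldProd ldPolar
  have h1 : ∀ s ∈ Z, (fun w : ℂ => (w - s) ^ k s) z ≠ 0 := fun s hs =>
    pow_ne_zero _ (sub_ne_zero.2 fun h => hz (h ▸ hs))
  have h2 : ∀ s ∈ Z, DifferentiableAt ℂ (fun w : ℂ => (w - s) ^ k s) z := fun s _ => by fun_prop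
  rw [logDeriv_prod h1 h2]
  refine Finset.sum_congr rfl fun s hs => ?_
  rw [logDeriv_fun_pow (by fun_prop), logDeriv_apply]
  simp [div_eq_mul_inv]

theorem ldPolar_eq_add_erase {Z : Finset ℂ} (k : ℂ → ℕ) {z₀ : ℂ} (hz₀ : z₀ ∈ Z) (z : ℂ) :
    ldPolar Z k z = (k z₀ : ℂ) / (z - z₀) + ldPolar (Z.erase z₀) k z := by
  unfold ldPolar
  rw [Finset.add_sum_erase Z (fun s => (k s : ℂ) / (z - s)) hz₀]

theorem ldProd_eq_mul_erase {Z : Finset ℂ} (k : ℂ → ℕ) {z₀ : ℂ} (hz₀ : z₀ ∈ Z) (z : ℂ) :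
    ldProd Z k z = (z - z₀) ^ k z₀ * ldProd (Z.erase z₀) k z := by
  unfold ldProd
  rw [Finset.mul_prod_erase Z (fun s => (z - s) ^ k s) hz₀]

/-- The regular part of `φ / ψ` on a disc. -/
theorem ld_exists_regular (c : ℂ) (r : ℝ) (φ ψ : ℂ → ℂ) (k : ℂ → ℕ)
    (hφ : DifferentiableOn ℂ φ (ball c r)) (hψ : DifferentiableOn ℂ ψ (ball c r))
    (Z : Finset ℂ) (hZ : ∀ z ∈ ball c r, ψ z = 0 → z ∈ Z) (hZ0 : ∀ s ∈ Z, ψ s = 0)
    (hiso : ∀ z ∈ ball c r, ∀ᶠ w in 𝓝[≠] z, ψ w ≠ 0)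
    (hloc : ∀ z ∈ ball c r, LdLocal φ ψ (k z) z) :
    ∃ g : ℂ → ℂ, DifferentiableOn ℂ g (ball c r) ∧
      ∀ z ∈ ball c r, ψ z ≠ 0 → g z = φ z / ψ z - ldPolar Z k z := by
  classical
  have hu : ∀ z : ℂ, ∃ u : ℂ → ℂ, z ∈ ball c r → (AnalyticAt ℂ u z ∧
      ∀ᶠ w in 𝓝 z, φ w * (w - z) = ψ w * ((k z : ℂ) + (w - z) * u w)) := by
    intro z
    by_cases hz : z ∈ ball c r
    · obtain ⟨u, h⟩ := hloc z hz
      exact ⟨u, fun _ => h⟩
    · exact ⟨0, fun h => absurd h hz⟩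
  choose u hu using hu
  let g : ℂ → ℂ := fun z =>
    if ψ z = 0 then u z z - ldPolar (Z.erase z) k z else φ z / ψ z - ldPolar Z k z
  refine ⟨g, ?_, fun z _ hz => by simp only [g, if_neg hz]⟩
  intro z₀ hz₀
  have hnhds : ball c r ∈ 𝓝 z₀ := isOpen_ball.mem_nhds hz₀
  by_cases h0 : ψ z₀ = 0
  · have hzZ : z₀ ∈ Z := hZ z₀ hz₀ h0
    have hd : DifferentiableAt ℂ (fun w => u z₀ w - ldPolar (Z.erase z₀) k w) z₀ :=
      (hu z₀ hz₀).1.differentiableAt.sub (differentiableAt_ldPolar (Finset.notMem_erase z₀ Z))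
    have hev : g =ᶠ[𝓝 z₀] fun w => u z₀ w - ldPolar (Z.erase z₀) k w := by
      have h1 := eventually_nhdsWithin_iff.1 (hiso z₀ hz₀)
      filter_upwards [h1, (hu z₀ hz₀).2] with w hw1 hw2
      by_cases hw : w = z₀
      · subst hw
        simp only [g, if_pos h0]
      · have hψw : ψ w ≠ 0 := hw1 hw
        have hsub : w - z₀ ≠ 0 := sub_ne_zero.2 hw
        simp only [g, if_neg hψw]
        rw [ldPolar_eq_add_erase k hzZ w]
        have : φ w / ψ w = (k z₀ : ℂ) / (w - z₀) + u z₀ w := by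
          field_simp
          linear_combination hw2
        rw [this]
        ring
    exact (hd.congr_of_eventuallyEq hev).differentiableWithinAt
  · have hzZ : z₀ ∉ Z := fun h => h0 (hZ0 z₀ h)
    have hψd : DifferentiableAt ℂ ψ z₀ := hψ.differentiableAt hnhds
    have hd : DifferentiableAt ℂ (fun w => φ w / ψ w - ldPolar Z k w) z₀ :=
      ((hφ.differentiableAt hnhds).div hψd h0).sub (differentiableAt_ldPolar hzZ)
    have hev : g =ᶠ[𝓝 z₀] fun w => φ w / ψ w - ldPolar Z k w := by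
      filter_upwards [hψd.continuousAt.eventually_ne h0] with w hw
      simp only [g, if_neg hw]
    exact (hd.congr_of_eventuallyEq hev).differentiableWithinAt

/-- Existence on a disc, normalised at a base point. -/
theorem ld_exists_ball (c : ℂ) (r : ℝ) (φ ψ : ℂ → ℂ) (k : ℂ → ℕ)
    (hφ : DifferentiableOn ℂ φ (ball c r)) (hψ : DifferentiableOn ℂ ψ (ball c r))
    (Z : Finset ℂ) (hZ : ∀ z ∈ ball c r, ψ z = 0 → z ∈ Z) (hZ0 : ∀ s ∈ Z, ψ s = 0)
    (hiso : ∀ z ∈ ball c r, ∀ᶠ w in 𝓝[≠] z, ψ w ≠ 0)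
    (hloc : ∀ z ∈ ball c r, LdLocal φ ψ (k z) z)
    (b : ℂ) (hψb : ψ b ≠ 0) :
    ∃ F : ℂ → ℂ, DifferentiableOn ℂ F (ball c r) ∧ F b = 1 ∧
      (∀ z ∈ ball c r, deriv F z * ψ z = φ z * F z) ∧
      (∀ z ∈ ball c r, meromorphicOrderAt F z = ((k z : ℤ) : WithTop ℤ)) := by
  classical
  obtain ⟨g, hg, hgeq⟩ := ld_exists_regular c r φ ψ k hφ hψ Z hZ hZ0 hiso hloc
  obtain ⟨G, hG⟩ := hg.isExactOn_ball
  have hbZ : b ∉ Z := fun h => hψb (hZ0 b h)
  set C : ℂ := ldProd Z k b * Complex.exp (G b) with hC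
  have hC0 : C ≠ 0 := mul_ne_zero (ldProd_ne_zero hbZ) (Complex.exp_ne_zero _)
  let F : ℂ → ℂ := fun z => C⁻¹ * (ldProd Z k z * Complex.exp (G z))
  have hGd : DifferentiableOn ℂ G (ball c r) := fun z hz =>
    (hG z hz).differentiableAt.differentiableWithinAt
  have hFd : DifferentiableOn ℂ F (ball c r) :=
    (((differentiable_ldProd Z k).differentiableOn).mul hGd.cexp).const_mul _
  have hFb : F b = 1 := inv_mul_cancel₀ hC0
  -- the equation away from the zeros of `ψ`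
  have hode1 : ∀ z ∈ ball c r, ψ z ≠ 0 → deriv F z * ψ z = φ z * F z := by
    intro z hz hψz
    have hzZ : z ∉ Z := fun h => hψz (hZ0 z h)
    have hP0 : ldProd Z k z ≠ 0 := ldProd_ne_zero hzZ
    have hE0 : Complex.exp (G z) ≠ 0 := Complex.exp_ne_zero _
    have hFz : F z ≠ 0 := mul_ne_zero (inv_ne_zero hC0) (mul_ne_zero hP0 hE0)
    have hGz : DifferentiableAt ℂ G z := (hG z hz).differentiableAt
    have hl : logDeriv F z = φ z / ψ z := by
      have h1 : logDeriv F z = logDeriv (fun w => ldProd Z k w * Complex.exp (G w)) z :=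
        logDeriv_const_mul z C⁻¹ (inv_ne_zero hC0)
      have h2 : logDeriv (fun w => ldProd Z k w * Complex.exp (G w)) z =
          logDeriv (ldProd Z k) z + logDeriv (fun w => Complex.exp (G w)) z :=
        logDeriv_mul z hP0 hE0 (differentiable_ldProd Z k z) hGz.cexp
      have h3 : logDeriv (fun w => Complex.exp (G w)) z = g z := by
        rw [logDeriv_apply, (hG z hz).cexp.deriv]
        field_simp
      rw [h1, h2, h3, logDeriv_ldProd hzZ, hgeq z hz hψz]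
      ring
    rw [logDeriv_apply] at hl
    field_simp at hl
    linear_combination hl
  have hode : ∀ z ∈ ball c r, deriv F z * ψ z = φ z * F z := by
    intro z hz
    by_cases hψz : ψ z = 0
    · by_contra hne
      have hnhds : ball c r ∈ 𝓝 z := isOpen_ball.mem_nhds hz
      have hcont : ContinuousAt (fun w => deriv F w * ψ w - φ w * F w) z :=
        ((((hFd.deriv isOpen_ball).differentiableAt hnhds).continuousAt).mul
          ((hψ.differentiableAt hnhds).continuousAt)).sub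
          (((hφ.differentiableAt hnhds).continuousAt).mul
            ((hFd.differentiableAt hnhds).continuousAt))
      have h1 : ∀ᶠ w in 𝓝 z, deriv F w * ψ w - φ w * F w ≠ 0 :=
        hcont.eventually_ne (sub_ne_zero.2 hne)
      have h2 : ∀ᶠ w in 𝓝[≠] z, deriv F w * ψ w - φ w * F w ≠ 0 := h1.filter_mono nhdsWithin_le_nhds
      have h3 : ∀ᶠ w in 𝓝[≠] z, w ∈ ball c r := Filter.Eventually.filter_mono nhdsWithin_le_nhds hnhds
      obtain ⟨w, hw1, hw2, hw3⟩ := (h2.and ((hiso z hz).and h3)).exists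
      exact hw1 (sub_eq_zero.2 (hode1 w hw3 hw2))
    · exact hode1 z hz hψz
  refine ⟨F, hFd, hFb, hode, ?_⟩
  intro z₀ hz₀
  have hnhds : ball c r ∈ 𝓝 z₀ := isOpen_ball.mem_nhds hz₀
  have hFa : AnalyticAt ℂ F z₀ := hFd.analyticAt hnhds
  -- the cofactor
  let R : ℂ → ℂ := fun z => C⁻¹ * (ldProd (Z.erase z₀) k z * Complex.exp (G z))
  have hRd : DifferentiableOn ℂ R (ball c r) :=
    (((differentiable_ldProd (Z.erase z₀) k).differentiableOn).mul hGd.cexp).const_mul _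
  have hRa : AnalyticAt ℂ R z₀ := hRd.analyticAt hnhds
  have hR0 : R z₀ ≠ 0 :=
    mul_ne_zero (inv_ne_zero hC0)
      (mul_ne_zero (ldProd_ne_zero (Finset.notMem_erase z₀ Z)) (Complex.exp_ne_zero _))
  have hfac : ∀ z, F z = (z - z₀) ^ k z₀ * R z := by
    intro z
    by_cases hzZ : z₀ ∈ Z
    · simp only [F, R]
      rw [ldProd_eq_mul_erase k hzZ z]
      ring
    · have hψ0 : ψ z₀ ≠ 0 := fun h => hzZ (hZ z₀ hz₀ h)
      have hk0 : k z₀ = 0 := by
        obtain ⟨u, -, hu⟩ := hloc z₀ hz₀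
        have := hu.self_of_nhds
        simp only [sub_self, mul_zero, zero_mul, add_zero] at this
        have h4 : (k z₀ : ℂ) = 0 := by
          rcases mul_eq_zero.1 this.symm with h | h
          · exact absurd h hψ0
          · exact h
        exact_mod_cast h4
      simp only [F, R]
      rw [hk0, pow_zero, one_mul, Finset.erase_eq_of_notMem hzZ]
  rw [meromorphicOrderAt_eq_int_iff hFa.meromorphicAt]
  refine ⟨R, hRa, hR0, Filter.Eventually.of_forall fun z => ?_⟩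
  rw [hfac z, zpow_natCast, smul_eq_mul]

/-- Uniqueness: two solutions on a connected open set which agree (and do not vanish) at a point
where `ψ` does not vanish are equal. -/
theorem ld_eqOn_of_eq_at {U : Set ℂ} (hU : IsOpen U) (hUc : IsPreconnected U)
    (φ ψ F₁ F₂ : ℂ → ℂ) (hψ : ContinuousOn ψ U)
    (h₁ : DifferentiableOn ℂ F₁ U) (h₂ : DifferentiableOn ℂ F₂ U)
    (ho₁ : ∀ z ∈ U, deriv F₁ z * ψ z = φ z * F₁ z)
    (ho₂ : ∀ z ∈ U, deriv F₂ z * ψ z = φ z * F₂ z)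
    (b : ℂ) (hb : b ∈ U) (hψb : ψ b ≠ 0) (hFb : F₂ b ≠ 0) (heq : F₁ b = F₂ b) :
    EqOn F₁ F₂ U := by
  have hev : ∀ᶠ z in 𝓝 b, z ∈ U ∧ ψ z ≠ 0 ∧ F₂ z ≠ 0 :=
    Filter.Eventually.and (hU.mem_nhds hb)
      (((hψ.continuousAt (hU.mem_nhds hb)).eventually_ne hψb).and
        ((h₂.continuousOn.continuousAt (hU.mem_nhds hb)).eventually_ne hFb))
  obtain ⟨ε, hε, hball⟩ := Metric.eventually_nhds_iff_ball.mp hev
  have hQ : ∀ z ∈ ball b ε, HasDerivAt (fun w => F₁ w / F₂ w) 0 z := by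
    intro z hz
    obtain ⟨hzU, hψz, hF₂z⟩ := hball z hz
    have d₁ : HasDerivAt F₁ (deriv F₁ z) z := (h₁.differentiableAt (hU.mem_nhds hzU)).hasDerivAt
    have d₂ : HasDerivAt F₂ (deriv F₂ z) z := (h₂.differentiableAt (hU.mem_nhds hzU)).hasDerivAt
    refine (d₁.div d₂ hF₂z).congr_deriv ?_
    have e₁ := ho₁ z hzU
    have e₂ := ho₂ z hzU
    have hnum : deriv F₁ z * F₂ z - F₁ z * deriv F₂ z = 0 := by
      have : (deriv F₁ z * F₂ z - F₁ z * deriv F₂ z) * ψ z = 0 := by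
        linear_combination F₂ z * e₁ - F₁ z * e₂
      rcases mul_eq_zero.1 this with h | h
      · exact h
      · exact absurd h hψz
    rw [hnum, zero_div]
  have hQd : DifferentiableOn ℂ (fun w => F₁ w / F₂ w) (ball b ε) := fun z hz =>
    (hQ z hz).differentiableAt.differentiableWithinAt
  have hconst : ∀ z ∈ ball b ε, F₁ z / F₂ z = F₁ b / F₂ b := fun z hz =>
    isOpen_ball.is_const_of_deriv_eq_zero (convex_ball b ε).isPreconnected hQd
      (fun w hw => (hQ w hw).deriv) hz (mem_ball_self hε)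
  have hloc : F₁ =ᶠ[𝓝 b] F₂ := by
    filter_upwards [ball_mem_nhds b hε] with z hz
    have h := hconst z hz
    rw [heq, div_self hFb, div_eq_one_iff_eq (hball z hz).2.2] at h
    exact h
  exact (h₁.analyticOnNhd hU).eqOn_of_preconnected_of_eventuallyEq (h₂.analyticOnNhd hU) hUc hb
    hloc

/-- Gluing normalised solutions along an increasing sequence of connected open sets. -/
theorem ld_exists_of_exhaustion (φ ψ : ℂ → ℂ) (k : ℂ → ℕ) (B : ℕ → Set ℂ)
    (hBo : ∀ n, IsOpen (B n)) (hBc : ∀ n, IsPreconnected (B n)) (hBmono : Monotone B)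
    (hψ : ∀ n, ContinuousOn ψ (B n)) (b : ℂ) (hb : b ∈ B 0) (hψb : ψ b ≠ 0)
    (hF : ∀ n, ∃ F : ℂ → ℂ, DifferentiableOn ℂ F (B n) ∧ F b = 1 ∧
      (∀ z ∈ B n, deriv F z * ψ z = φ z * F z) ∧
      (∀ z ∈ B n, meromorphicOrderAt F z = ((k z : ℤ) : WithTop ℤ))) :
    ∃ F : ℂ → ℂ, DifferentiableOn ℂ F (⋃ n, B n) ∧ F b = 1 ∧
      (∀ z ∈ ⋃ n, B n, deriv F z * ψ z = φ z * F z) ∧
      (∀ z ∈ ⋃ n, B n, meromorphicOrderAt F z = ((k z : ℤ) : WithTop ℤ)) := by
  classical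
  choose F hFd hFb hFo hFk using hF
  have hbn : ∀ n, b ∈ B n := fun n => hBmono (Nat.zero_le n) hb
  have hcompat : ∀ m n, m ≤ n → EqOn (F m) (F n) (B m) := by
    intro m n hmn
    refine ld_eqOn_of_eq_at (hBo m) (hBc m) φ ψ (F m) (F n) (hψ m) (hFd m)
      ((hFd n).mono (hBmono hmn)) (hFo m) (fun z hz => hFo n z (hBmono hmn hz)) b (hbn m) hψb ?_ ?_
    · rw [hFb n]
      exact one_ne_zero
    · rw [hFb m, hFb n]
  let Ff : ℂ → ℂ := fun z => if h : ∃ n, z ∈ B n then F (Nat.find h) z else 0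
  have hFf : ∀ n, EqOn Ff (F n) (B n) := by
    intro n z hz
    have h : ∃ n, z ∈ B n := ⟨n, hz⟩
    simp only [Ff, dif_pos h]
    exact hcompat _ _ (Nat.find_min' h hz) (Nat.find_spec h)
  have hFfev : ∀ n, ∀ z ∈ B n, Ff =ᶠ[𝓝 z] F n := fun n z hz => by
    filter_upwards [(hBo n).mem_nhds hz] with w hw using hFf n hw
  refine ⟨Ff, ?_, ?_, ?_, ?_⟩
  · intro z hz
    obtain ⟨n, hn⟩ := mem_iUnion.mp hz
    have h1 : DifferentiableAt ℂ (F n) z := (hFd n).differentiableAt ((hBo n).mem_nhds hn)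
    exact (h1.congr_of_eventuallyEq (hFfev n z hn)).differentiableWithinAt
  · rw [hFf 0 hb, hFb 0]
  · intro z hz
    obtain ⟨n, hn⟩ := mem_iUnion.mp hz
    rw [(hFfev n z hn).deriv_eq, hFf n hn]
    exact hFo n z hn
  · intro z hz
    obtain ⟨n, hn⟩ := mem_iUnion.mp hz
    rw [meromorphicOrderAt_congr ((hFfev n z hn).filter_mono nhdsWithin_le_nhds)]
    exact hFk n z hn

/-- **[A1-LOGDERIV]**, in terms of functions on `ℂ`. -/
theorem ld_exists_halfPlane (φ ψ : ℂ → ℂ) (k : ℂ → ℕ)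
    (hφ : DifferentiableOn ℂ φ {z : ℂ | 0 < z.im})
    (hψ : DifferentiableOn ℂ ψ {z : ℂ | 0 < z.im})
    (b : ℂ) (hb : 0 < b.im) (hψb : ψ b ≠ 0)
    (hloc : ∀ z : ℂ, 0 < z.im → LdLocal φ ψ (k z) z) :
    ∃ F : ℂ → ℂ, DifferentiableOn ℂ F {z : ℂ | 0 < z.im} ∧ F b = 1 ∧
      (∀ z : ℂ, 0 < z.im → deriv F z * ψ z = φ z * F z) ∧
      (∀ z : ℂ, 0 < z.im → meromorphicOrderAt F z = ((k z : ℤ) : WithTop ℤ)) := by
  have hUo : IsOpen {z : ℂ | 0 < z.im} := isOpen_lt continuous_const Complex.continuous_im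
  have hUc : IsPreconnected {z : ℂ | 0 < z.im} := (convex_halfSpace_im_gt 0).isPreconnected
  have hψa : AnalyticOnNhd ℂ ψ {z : ℂ | 0 < z.im} := hψ.analyticOnNhd hUo
  -- the zeros of `ψ` are isolated
  have hnot : ∀ z : ℂ, 0 < z.im → ¬ ∀ᶠ w in 𝓝 z, ψ w = 0 := by
    intro z hz h
    have h0 : EqOn ψ 0 {z : ℂ | 0 < z.im} :=
      hψa.eqOn_zero_of_preconnected_of_eventuallyEq_zero hUc hz h
    exact hψb (h0 hb)
  have hiso : ∀ z : ℂ, 0 < z.im → ∀ᶠ w in 𝓝[≠] z, ψ w ≠ 0 := by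
    intro z hz
    rcases (hψa z hz).eventually_eq_zero_or_eventually_ne_zero with h | h
    · exact absurd h (hnot z hz)
    · exact h
  -- the exhaustion
  set R₀ : ℝ := max 1 ((Complex.normSq b + 1) / (2 * b.im) + 1) with hR₀
  have hR₀1 : 1 ≤ R₀ := le_max_left _ _
  have hR₀b : Complex.normSq b + 1 < 2 * R₀ * b.im := by
    have h1 : (Complex.normSq b + 1) / (2 * b.im) < R₀ :=
      lt_of_lt_of_le (lt_add_one _) (le_max_right _ _)
    rw [div_lt_iff₀ (by positivity)] at h1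
    linarith
  let B : ℕ → Set ℂ := fun n =>
    ball (((n + R₀ : ℝ) : ℂ) * I) (√((n + R₀ : ℝ) ^ 2 - 1))
  have hcB : ∀ n : ℕ, closedBall (((n + R₀ : ℝ) : ℂ) * I) (√((n + R₀ : ℝ) ^ 2 - 1)) ⊆
      {z : ℂ | 0 < z.im} := fun n z hz =>
    Fermat.Agent.H41.im_pos_of_mem_closedBall_mul_I
      (by linarith [Nat.cast_nonneg (α := ℝ) n]) hz
  have hBU : ∀ n, B n ⊆ {z : ℂ | 0 < z.im} := fun n =>
    ball_subset_closedBall.trans (hcB n)
  have hBmono : Monotone B := by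
    intro m n hmn z hz
    have hzim : 0 < z.im := hBU m hz
    simp only [B] at hz ⊢
    rw [Fermat.Agent.H41.mem_ball_mul_I_iff] at hz ⊢
    have h1 : (m : ℝ) ≤ n := Nat.cast_le.mpr hmn
    have h2 : (m + R₀) * z.im ≤ (n + R₀) * z.im :=
      mul_le_mul_of_nonneg_right (by linarith) hzim.le
    linarith
  have hbB : b ∈ B 0 := by
    simp only [B]
    rw [Fermat.Agent.H41.mem_ball_mul_I_iff]
    simpa using hR₀b
  have hF : ∀ n, ∃ F : ℂ → ℂ, DifferentiableOn ℂ F (B n) ∧ F b = 1 ∧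
      (∀ z ∈ B n, deriv F z * ψ z = φ z * F z) ∧
      (∀ z ∈ B n, meromorphicOrderAt F z = ((k z : ℤ) : WithTop ℤ)) := by
    intro n
    have hfa : AnalyticOnNhd ℂ ψ
        (closedBall (((n + R₀ : ℝ) : ℂ) * I) (√((n + R₀ : ℝ) ^ 2 - 1))) := hψa.mono (hcB n)
    have hfin := (isCompact_closedBall (((n + R₀ : ℝ) : ℂ) * I)
      (√((n + R₀ : ℝ) ^ 2 - 1))).finite_sdiff_of_mem_codiscreteWithin
        hfa.codiscreteWithin_setOfPred_analyticOrderAt_eq_zero_or_top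
    refine ld_exists_ball _ _ φ ψ k (hφ.mono (hBU n)) (hψ.mono (hBU n)) hfin.toFinset ?_ ?_
      (fun z hz => hiso z (hBU n hz)) (fun z hz => hloc z (hBU n hz)) b hψb
    · intro z hz hψz
      rw [Set.Finite.mem_toFinset]
      refine ⟨ball_subset_closedBall hz, ?_⟩
      rintro (h | h)
      · exact (analyticOrderAt_ne_zero.mpr ⟨hfa z (ball_subset_closedBall hz), hψz⟩) h
      · exact hnot z (hBU n hz) (analyticOrderAt_eq_top.mp h)
    · intro s hs
      rw [Set.Finite.mem_toFinset] at hs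
      obtain ⟨hs1, hs2⟩ := hs
      by_contra hne
      exact hs2 (Or.inl ((hfa s hs1).analyticOrderAt_eq_zero.mpr hne))
  obtain ⟨F, hFd, hFb, hFo, hFk⟩ := ld_exists_of_exhaustion φ ψ k B (fun n => isOpen_ball)
    (fun n => (convex_ball _ _).isPreconnected) hBmono
    (fun n => (hψ.mono (hBU n)).continuousOn) b hbB hψb hF
  have hcover : {z : ℂ | 0 < z.im} ⊆ ⋃ n, B n := by
    intro z hz
    obtain ⟨n, hn⟩ := exists_nat_gt ((Complex.normSq z + 1) / (2 * z.im))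
    refine mem_iUnion.mpr ⟨n, ?_⟩
    simp only [B]
    rw [Fermat.Agent.H41.mem_ball_mul_I_iff]
    have hz' : (0 : ℝ) < z.im := hz
    rw [div_lt_iff₀ (by positivity)] at hn
    nlinarith
  exact ⟨F, hFd.mono hcover, hFb, fun z hz => hFo z (hcover hz), fun z hz => hFk z (hcover hz)⟩

open UpperHalfPlane in
/-- **[A1-LOGDERIV]** a meromorphic function `φ / ψ` on `ℍ` with at most simple poles and
residues in `ℕ` is the logarithmic derivative of a holomorphic function, whose order at `z₀` is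
the residue. -/
theorem logDerivStatement : Fermat.Agent.H84.MWDiv.LogDerivStatement := by
  intro φ ψ k hφ hψ hψ0 hloc
  classical
  have hφc := UpperHalfPlane.mdifferentiable_iff.1 hφ
  have hψc := UpperHalfPlane.mdifferentiable_iff.1 hψ
  obtain ⟨b, hb⟩ : ∃ b : ℍ, ψ b ≠ 0 := by
    by_contra h
    push Not at h
    exact hψ0 (funext h)
  let kc : ℂ → ℕ := fun z => if h : 0 < z.im then k ⟨z, h⟩ else 0
  have hlocc : ∀ z : ℂ, 0 < z.im → LdLocal (φ ∘ ofComplex) (ψ ∘ ofComplex) (kc z) z := by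
    intro z hz
    obtain ⟨u, hu, he⟩ := hloc ⟨z, hz⟩
    refine ⟨u, hu, ?_⟩
    simp only [kc, dif_pos hz]
    exact he
  have hψb : (ψ ∘ ofComplex) (b : ℂ) ≠ 0 := by
    simpa [Function.comp_apply, ofComplex_apply] using hb
  obtain ⟨Fc, hFd, hFb, hFo, hFk⟩ := ld_exists_halfPlane (φ ∘ ofComplex) (ψ ∘ ofComplex) kc
    hφc hψc (b : ℂ) b.im_pos hψb hlocc
  have hcomp : ∀ z : ℂ, 0 < z.im → ((fun w : ℍ => Fc (w : ℂ)) ∘ ofComplex) z = Fc z := by
    intro z hz
    simp [Function.comp_apply, ofComplex_apply_of_im_pos hz]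
  have hUo : IsOpen {z : ℂ | 0 < z.im} := isOpen_lt continuous_const Complex.continuous_im
  have hev : ∀ z : ℂ, 0 < z.im → ((fun w : ℍ => Fc (w : ℂ)) ∘ ofComplex) =ᶠ[𝓝 z] Fc := by
    intro z hz
    filter_upwards [hUo.mem_nhds hz] with w hw using hcomp w hw
  refine ⟨fun z => Fc (z : ℂ), ?_, ?_, ?_, ?_⟩
  · rw [UpperHalfPlane.mdifferentiable_iff]
    exact hFd.congr fun z hz => hcomp z hz
  · intro h
    have := congrFun h b
    simp only [Pi.zero_apply] at this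
    rw [hFb] at this
    exact one_ne_zero this
  · intro z
    rw [(hev (z : ℂ) z.im_pos).deriv_eq]
    have := hFo (z : ℂ) z.im_pos
    simpa [Function.comp_apply, ofComplex_apply] using this
  · intro z₀
    rw [meromorphicOrderAt_congr ((hev (z₀ : ℂ) z₀.im_pos).filter_mono nhdsWithin_le_nhds)]
    have := hFk (z₀ : ℂ) z₀.im_pos
    simpa [kc, z₀.im_pos] using this

end Fermat.Agent.H95.MWDiv
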